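import Fermat.Agent.LOneGRH.Euler
import Fermat.Agent.MertensThird.Constant
import Mathlib.NumberTheory.LSeries.HurwitzZetaValues

/-!
# Littlewood's bounds for `L (1, χ)`

By Mertens, `∏_{p ≤ N} (1 - 1/p)⁻¹ ∼ e^γ log N` and `∏_{p ≤ N} (1 + 1/p) ∼ (6 e^γ / π²) log N`;
take `N ≈ log² q`.
-/

set_option autoImplicit false

noncomputable section

namespace FA.LOneGRH

open Finset Filter DirichletCharacter
open FA.DirichletHadamard (GRHFor)
open Real (eulerMascheroniConstant)
open scoped Topology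

/-- `∏_{p ≤ N} (1 - 1/p)⁻¹`. -/
def upProd (N : ℕ) : ℝ := ∏ p ∈ (Icc 1 N).filter Nat.Prime, (1 - (p : ℝ)⁻¹)⁻¹

/-- `∏_{p ≤ N} (1 + 1/p)`. -/
def downProd (N : ℕ) : ℝ := ∏ p ∈ (Icc 1 N).filter Nat.Prime, (1 + (p : ℝ)⁻¹)

theorem tendsto_upProd : Tendsto (fun N : ℕ => upProd N / Real.log N) atTop
    (𝓝 (Real.exp eulerMascheroniConstant)) := by
  have h := ((MertensThird.tendsto_log_mul_prod.comp tendsto_natCast_atTop_atTop).inv₀
    (Real.exp_ne_zero _))
  rw [← Real.exp_neg, neg_neg] at h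
  refine h.congr fun N => ?_
  simp only [Function.comp_apply, Nat.floor_natCast, ErdosKac.primesUpTo]
  rw [upProd, prod_inv_distrib]
  ring

theorem tendsto_sq_prod : Tendsto (fun N : ℕ => ∏ p ∈ (Icc 1 N).filter Nat.Prime,
    (1 - ((p : ℝ) ^ 2)⁻¹)) atTop (𝓝 (6 / Real.pi ^ 2)) := by
  have h := riemannZeta_eulerProduct (s := 2) (by norm_num)
  rw [riemannZeta_two] at h
  have h2 := ((Complex.continuous_re.tendsto _).comp (h.inv₀ (by simp [Real.pi_ne_zero]))).comp
    (tendsto_add_atTop_nat 1)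
  have e6 : ((Real.pi : ℂ) ^ 2 / 6)⁻¹ = ((6 / Real.pi ^ 2 : ℝ) : ℂ) := by
    rw [inv_div]
    push_cast
    rfl
  rw [e6, Complex.ofReal_re] at h2
  refine h2.congr fun N => ?_
  simp only [Function.comp_apply]
  have e : (∏ p ∈ (N + 1).primesBelow, (1 - (p : ℂ) ^ (-(2 : ℂ)))⁻¹)⁻¹ =
      ((∏ p ∈ (Icc 1 N).filter Nat.Prime, (1 - ((p : ℝ) ^ 2)⁻¹) : ℝ) : ℂ) := by
    rw [prod_inv_distrib, inv_inv, Complex.ofReal_prod]
    refine prod_congr ?_ fun p _ => ?_
    · ext p
      simp only [Nat.mem_primesBelow, mem_filter, mem_Icc]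
      exact ⟨fun h => ⟨⟨h.2.one_le, by omega⟩, h.2⟩, fun h => ⟨by omega, h.2⟩⟩
    · rw [Complex.cpow_neg, Complex.cpow_ofNat]
      push_cast
      ring
  rw [e, Complex.ofReal_re]

theorem tendsto_downProd : Tendsto (fun N : ℕ => downProd N / Real.log N) atTop
    (𝓝 (6 / Real.pi ^ 2 * Real.exp eulerMascheroniConstant)) := by
  refine (tendsto_sq_prod.mul tendsto_upProd).congr fun N => ?_
  rw [← mul_div_assoc, upProd, downProd, ← prod_mul_distrib]
  congr 1
  refine prod_congr rfl fun p hp => ?_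
  have hp2 : (2 : ℝ) ≤ p := Nat.ofNat_le_cast.2 (mem_filter.1 hp).2.two_le
  have h1 : (p : ℝ)⁻¹ ≤ 2⁻¹ := inv_anti₀ two_pos hp2
  have h2 : 1 - (p : ℝ)⁻¹ ≠ 0 := by linarith
  rw [← div_eq_mul_inv, div_eq_iff h2]
  ring

variable {q : ℕ} [NeZero q]

omit [NeZero q] in
theorem norm_partProd_one_le (χ : DirichletCharacter ℂ q) (N : ℕ) :
    ‖partProd χ N 1‖ ≤ upProd N := by
  rw [partProd, norm_prod]
  refine prod_le_prod (fun p _ => norm_nonneg _) fun p hp => ?_
  have hp2 : (2 : ℝ) ≤ p := Nat.ofNat_le_cast.2 (mem_filter.1 hp).2.two_le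
  have h1 : (p : ℝ)⁻¹ ≤ 2⁻¹ := inv_anti₀ two_pos hp2
  rw [norm_inv, Real.rpow_neg_one]
  refine inv_anti₀ (by linarith) (le_trans ?_ (norm_sub_norm_le _ _))
  rw [norm_one, norm_mul, Complex.norm_real, Real.norm_of_nonneg (by positivity)]
  linarith [mul_le_of_le_one_left (show (0 : ℝ) ≤ (p : ℝ)⁻¹ by positivity) 
      (χ.norm_le_one (p : ZMod q))]

omit [NeZero q] in
theorem norm_partProd_one_inv_le (χ : DirichletCharacter ℂ q) (N : ℕ) :
    ‖partProd χ N 1‖⁻¹ ≤ downProd N := by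
  rw [partProd, norm_prod, ← prod_inv_distrib]
  refine prod_le_prod (fun p _ => inv_nonneg.2 (norm_nonneg _)) fun p hp => ?_
  rw [norm_inv, inv_inv, Real.rpow_neg_one]
  refine (norm_sub_le _ _).trans ?_
  rw [norm_one, norm_mul, Complex.norm_real, Real.norm_of_nonneg (by positivity)]
  linarith [mul_le_of_le_one_left (show (0 : ℝ) ≤ (p : ℝ)⁻¹ by positivity) 
      (χ.norm_le_one (p : ZMod q))]

/-- The cutoff `⌈log² (2 q)⌉`. -/
def cutOff (q : ℕ) : ℕ := ⌈Real.log (2 * q) ^ 2⌉₊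

theorem tendsto_log_two_mul : Tendsto (fun q : ℕ => Real.log (2 * q)) atTop atTop :=
  Real.tendsto_log_atTop.comp (tendsto_natCast_atTop_atTop.const_mul_atTop two_pos)

theorem tendsto_cutOff : Tendsto cutOff atTop atTop :=
  tendsto_nat_ceil_atTop.comp ((tendsto_pow_atTop two_ne_zero).comp tendsto_log_two_mul)

theorem tendsto_loglog : Tendsto (fun q : ℕ => Real.log (Real.log q)) atTop atTop :=
  Real.tendsto_log_atTop.comp (Real.tendsto_log_atTop.comp tendsto_natCast_atTop_atTop)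

theorem tendsto_log_cutOff_div :
    Tendsto (fun q : ℕ => Real.log (cutOff q) / Real.log (Real.log q)) atTop (𝓝 2) := by
  have hb : Tendsto (fun q : ℕ => 2 + 3 * Real.log 2 * (Real.log (Real.log q))⁻¹) atTop (𝓝 2) := by
    simpa using
      (tendsto_inv_atTop_zero.comp tendsto_loglog).const_mul (3 * Real.log 2) |>.const_add 2
  refine tendsto_of_tendsto_of_tendsto_of_le_of_le' tendsto_const_nhds hb ?_ ?_
  all_goals
    filter_upwards [tendsto_loglog.eventually_gt_atTop 0, eventually_ge_atTop 3] with q hll hq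
    have hq3 : (3 : ℝ) ≤ q := Nat.ofNat_le_cast.2 hq
    have hlq : 1 ≤ Real.log q := by
      rw [Real.le_log_iff_exp_le (by linarith)]
      linarith [Real.exp_one_lt_d9]
    obtain ⟨L, hL⟩ : ∃ L, L = Real.log (2 * q) := ⟨_, rfl⟩
    have hL1 : Real.log q ≤ L := hL ▸ Real.log_le_log (by linarith) (by linarith)
    have hL2 : L ≤ 2 * Real.log q := by
      rw [hL, Real.log_mul two_ne_zero (by linarith)]
      linarith [Real.log_two_lt_d9]
    have hL0 : 0 < L := by linarith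
    have hN1 : L ^ 2 ≤ (cutOff q : ℝ) := by rw [cutOff, ← hL]; exact Nat.le_ceil _
  · rw [le_div_iff₀ hll]
    refine le_trans ?_ (Real.log_le_log (by positivity) hN1)
    rw [Real.log_pow]
    push_cast
    linarith [Real.log_le_log (by linarith) hL1]
  · rw [div_le_iff₀ hll, add_mul, mul_assoc, inv_mul_cancel₀ hll.ne', mul_one]
    have hN2 : (cutOff q : ℝ) ≤ 2 ^ 3 * Real.log q ^ 2 := by
      rw [cutOff, ← hL]
      refine (Nat.ceil_lt_add_one (by positivity)).le.trans ?_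
      nlinarith [pow_le_pow_left₀ (by linarith) hL2 2]
    refine (Real.log_le_log (lt_of_lt_of_le (by positivity) hN1) hN2).trans (le_of_eq ?_)
    rw [Real.log_mul (by norm_num) (by positivity), Real.log_pow, Real.log_pow]
    push_cast
    ring

theorem exists_cut : ∃ C, 0 ≤ C ∧ ∀ᶠ q : ℕ in atTop, ∀ [NeZero q]
    (χ : DirichletCharacter ℂ q), χ ≠ 1 → GRHFor χ → ∃ E : ℂ,
      ‖E‖ ≤ C / Real.log (cutOff q) ∧
        LFunction χ 1 = partProd χ (cutOff q) 1 * Complex.exp E := by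
  obtain ⟨C, hC, h⟩ := exists_lfunction_one
  refine ⟨2 * C, by positivity, (tendsto_cutOff.eventually_ge_atTop 2).mono
    fun q hN _ χ hχ hG => ?_⟩
  obtain ⟨E, hE, he⟩ := h q χ hχ hG (cutOff q) hN
  refine ⟨E, hE.trans (div_le_div_of_nonneg_right ?_ (Real.log_natCast_nonneg _)), he⟩
  have h1 : Real.log (2 * q) / √(cutOff q : ℝ) ≤ 1 := by
    refine div_le_one_of_le₀ ?_ (Real.sqrt_nonneg _)
    exact Real.le_sqrt_of_sq_le (by rw [cutOff]; exact Nat.le_ceil _)
  nlinarith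

theorem eventually_mul_exp_lt {F : ℕ → ℝ} {a ε C : ℝ} (hε : 0 < ε) (ha : 0 < a)
    (hF : Tendsto (fun N : ℕ => F N / Real.log N) atTop (𝓝 a)) :
    ∀ᶠ q : ℕ in atTop, F (cutOff q) * Real.exp (C / Real.log (cutOff q)) <
      (2 + ε) * a * Real.log (Real.log q) := by
  have h1 : Tendsto (fun q : ℕ => Real.exp (C / Real.log (cutOff q))) atTop (𝓝 1) := by
    have := ((tendsto_const_nhds (x := C)).div_atTop
      ((Real.tendsto_log_atTop.comp tendsto_natCast_atTop_atTop).comp tendsto_cutOff))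
    simpa [Function.comp_def] using (Real.continuous_exp.tendsto _).comp this
  have h2 := (((hF.comp tendsto_cutOff).mul tendsto_log_cutOff_div).mul h1)
  have h3 : a * 2 * 1 < (2 + ε) * a := by nlinarith
  filter_upwards [h2.eventually_lt_const h3, tendsto_loglog.eventually_gt_atTop 0,
    tendsto_cutOff.eventually_ge_atTop 2] with q hq hll hN
  have hlN := log_pos_of hN
  calc F (cutOff q) * Real.exp (C / Real.log (cutOff q))
      = (F (cutOff q) / Real.log (cutOff q) * (Real.log (cutOff q) / Real.log (Real.log q)) *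
          Real.exp (C / Real.log (cutOff q))) * Real.log (Real.log q) := by field_simp
    _ < _ := mul_lt_mul_of_pos_right hq hll

/-- **Littlewood's upper bound.** -/
theorem exists_upper {ε : ℝ} (hε : 0 < ε) : ∀ᶠ q : ℕ in atTop, ∀ [NeZero q]
    (χ : DirichletCharacter ℂ q), χ ≠ 1 → GRHFor χ →
      ‖LFunction χ 1‖ ≤ (2 + ε) * Real.exp eulerMascheroniConstant * Real.log (Real.log q) := by
  obtain ⟨C, -, hcut⟩ := exists_cut
  filter_upwards [hcut, eventually_mul_exp_lt (C := C) hε (Real.exp_pos _) tendsto_upProd]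
    with q h hlt _ χ hχ hG
  obtain ⟨E, hE, he⟩ := h χ hχ hG
  rw [he, norm_mul, Complex.norm_exp]
  refine le_trans (mul_le_mul (norm_partProd_one_le χ _) (Real.exp_le_exp.2 ?_)
    (Real.exp_nonneg _) ((norm_nonneg _).trans (norm_partProd_one_le χ _))) hlt.le
  exact (Complex.re_le_norm E).trans hE

/-- **Littlewood's lower bound.** -/
theorem exists_lower {ε : ℝ} (hε : 0 < ε) : ∀ᶠ q : ℕ in atTop, ∀ [NeZero q]
    (χ : DirichletCharacter ℂ q), χ ≠ 1 → GRHFor χ →
      ‖LFunction χ 1‖⁻¹ ≤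
        (2 + ε) * (6 / Real.pi ^ 2 * Real.exp eulerMascheroniConstant) *
          Real.log (Real.log q) := by
  obtain ⟨C, -, hcut⟩ := exists_cut
  filter_upwards [hcut, eventually_mul_exp_lt (C := C) hε
    (by positivity) tendsto_downProd] with q h hlt _ χ hχ hG
  obtain ⟨E, hE, he⟩ := h χ hχ hG
  rw [he, norm_mul, Complex.norm_exp, mul_inv, ← Real.exp_neg]
  refine le_trans (mul_le_mul (norm_partProd_one_inv_le χ _) (Real.exp_le_exp.2 ?_)
    (Real.exp_nonneg _) ((inv_nonneg.2 (norm_nonneg _)).trans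
      (norm_partProd_one_inv_le χ _))) hlt.le
  exact ((neg_le_abs E.re).trans (Complex.abs_re_le_norm E)).trans hE

end FA.LOneGRH

end
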