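import Fermat.Agent.LOneGRH.Bounds
import Fermat.Agent.ClassNumberExtremes.Tail

/-!
# Littlewood's bounds for the class number `h (-4 n)`
-/

set_option autoImplicit false

noncomputable section

namespace FA.LOneGRH

open Filter
open FA.DirichletHadamard (GRHFor)
open FA.OrderTheta (signChar)
open FA.ClassNumberExtremes (LVal LFunction_eq_LVal LVal_pos card_cl_eq)
open Real (eulerMascheroniConstant)
open scoped Topology

theorem tendsto_four_mul : Tendsto (fun n : ℕ => 4 * n) atTop atTop :=
  tendsto_atTop_mono (fun n : ℕ => Nat.le_mul_of_pos_left n four_pos) tendsto_id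

/-- `log log (4 n) ≤ (1 + δ) log log n` eventually. -/
theorem eventually_loglog_four {δ : ℝ} (hδ : 0 < δ) : ∀ᶠ n : ℕ in atTop,
    Real.log (Real.log (4 * n : ℕ)) ≤ (1 + δ) * Real.log (Real.log n) := by
  filter_upwards [tendsto_loglog.eventually_ge_atTop (Real.log 3 / δ), eventually_ge_atTop 3]
    with n hll hn
  have hn3 : (3 : ℝ) ≤ n := Nat.ofNat_le_cast.2 hn
  have hln : 1 ≤ Real.log n := by
    rw [Real.le_log_iff_exp_le (by linarith)]
    linarith [Real.exp_one_lt_d9]
  have h4 : Real.log (4 * n : ℕ) ≤ 3 * Real.log n := by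
    push_cast
    rw [Real.log_mul four_ne_zero (by linarith), show (4 : ℝ) = 2 ^ 2 by norm_num, Real.log_pow]
    push_cast
    linarith [Real.log_two_lt_d9]
  have h40 : 0 < Real.log (4 * n : ℕ) := Real.log_pos (Nat.one_lt_cast.2 (by omega))
  refine (Real.log_le_log h40 h4).trans ?_
  rw [Real.log_mul three_ne_zero (by linarith)]
  rw [div_le_iff₀ hδ] at hll
  linarith

/-- Both bounds of Littlewood for the character `(-n / ·)`. -/
theorem eventually_LVal {ε : ℝ} (hε : 0 < ε) : ∀ᶠ n : ℕ in atTop,
    ∀ [NeZero n] [NeZero (4 * n)], GRHFor (signChar n) →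
      LVal n ≤ (2 + ε) * Real.exp eulerMascheroniConstant * Real.log (Real.log n) ∧
        (LVal n)⁻¹ ≤ (2 + ε) * (6 / Real.pi ^ 2 * Real.exp eulerMascheroniConstant) *
          Real.log (Real.log n) := by
  obtain ⟨δ, hδ, hδ'⟩ : ∃ δ : ℝ, 0 < δ ∧ (2 + ε / 2) * (1 + δ) = 2 + ε :=
    ⟨ε / 2 / (2 + ε / 2), by positivity, by field_simp; ring⟩
  filter_upwards [tendsto_four_mul.eventually (exists_upper (half_pos hε)),
    tendsto_four_mul.eventually (exists_lower (half_pos hε)), eventually_loglog_four hδ]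
    with n hu hl hll _ _ hG
  have hne := FA.OrderTheta.signChar_ne_one (n := n)
  have h1 := hu (signChar n) hne hG
  have h2 := hl (signChar n) hne hG
  rw [LFunction_eq_LVal, Complex.norm_real, Real.norm_of_nonneg LVal_pos.le] at h1 h2
  rw [← hδ']
  refine ⟨h1.trans ?_, h2.trans ?_⟩
  · calc (2 + ε / 2) * Real.exp eulerMascheroniConstant * Real.log (Real.log (4 * n : ℕ))
        ≤ (2 + ε / 2) * Real.exp eulerMascheroniConstant * ((1 + δ) * Real.log (Real.log n)) :=
          mul_le_mul_of_nonneg_left hll (by positivity)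
      _ = _ := by ring
  · calc (2 + ε / 2) * (6 / Real.pi ^ 2 * Real.exp eulerMascheroniConstant) *
          Real.log (Real.log (4 * n : ℕ))
        ≤ (2 + ε / 2) * (6 / Real.pi ^ 2 * Real.exp eulerMascheroniConstant) *
          ((1 + δ) * Real.log (Real.log n)) := mul_le_mul_of_nonneg_left hll (by positivity)
      _ = _ := by ring

/-- **Littlewood's bounds for the class number.** -/
theorem eventually_card_cl {ε : ℝ} (hε : 0 < ε) : ∀ᶠ n : ℕ in atTop,
    ∀ [NeZero n] [NeZero (4 * n)], GRHFor (signChar n) →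
      (Nat.card (FA.OrderTheta.Cl n) : ℝ) ≤ (2 + ε) * (2 * Real.exp eulerMascheroniConstant /
          Real.pi) * √n * Real.log (Real.log n) ∧
        Real.pi * √n / ((2 + ε) * 3 * Real.exp eulerMascheroniConstant * Real.log (Real.log n)) ≤
          (Nat.card (FA.OrderTheta.Cl n) : ℝ) := by
  filter_upwards [eventually_LVal hε, eventually_gt_atTop 1,
    tendsto_loglog.eventually_gt_atTop 0] with n hn hn1 hll _ _ hG
  obtain ⟨hu, hl⟩ := hn hG
  have hL := LVal_pos (n := n)
  have hpi := Real.pi_pos
  rw [card_cl_eq hn1]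
  constructor
  · calc 2 * √n / Real.pi * LVal n ≤ 2 * √n / Real.pi *
          ((2 + ε) * Real.exp eulerMascheroniConstant * Real.log (Real.log n)) :=
          mul_le_mul_of_nonneg_left hu (by positivity)
      _ = _ := by ring
  · rw [inv_le_iff_one_le_mul₀' hL] at hl
    rw [div_le_iff₀ (by positivity)]
    calc Real.pi * √n = Real.pi * √n * 1 := (mul_one _).symm
      _ ≤ Real.pi * √n * (LVal n * ((2 + ε) * (6 / Real.pi ^ 2 *
          Real.exp eulerMascheroniConstant) * Real.log (Real.log n))) :=
          mul_le_mul_of_nonneg_left hl (by positivity)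
      _ = _ := by field_simp; ring

end FA.LOneGRH

end
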