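import Mathlib.Analysis.SpecialFunctions.Pow.Real
import Mathlib.Analysis.SpecialFunctions.Log.Basic
import Mathlib.Algebra.BigOperators.Intervals
import Mathlib.Analysis.Complex.Norm
import Mathlib.Analysis.Complex.ExponentialBounds

/-!
# Two summations by parts against `n ^ (-s) / log n`

If the partial sums of `a` are `O (n)` and those of the partial sums are `O (K n ^ (3/2))`, then
`∑_{N < n ≤ M} a n n ^ (-s) / log n = O ((1 + K / √N) / log N)`, uniformly in `1 ≤ s ≤ 2` and `M`.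
-/

set_option autoImplicit false

noncomputable section

namespace FA.LOneGRH

open Finset

/-- The weight `n ^ (-s) / log n`. -/
def wt (s : ℝ) (n : ℕ) : ℝ := (n : ℝ) ^ (-s) / Real.log n

/-- Its first difference. -/
def dwt (s : ℝ) (n : ℕ) : ℝ := wt s n - wt s (n + 1)

/-- Summation by parts. -/
theorem abel_identity (a : ℕ → ℂ) (f : ℕ → ℝ) {N : ℕ} : ∀ M, N ≤ M →
    ∑ n ∈ Ioc N M, a n * (f n : ℂ) =
      (∑ k ∈ Ioc 0 M, a k) * (f (M + 1) : ℂ) - (∑ k ∈ Ioc 0 N, a k) * (f (N + 1) : ℂ) +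
        ∑ n ∈ Ioc N M, (∑ k ∈ Ioc 0 n, a k) * ((f n - f (n + 1) : ℝ) : ℂ) := by
  intro M hM
  induction M, hM using Nat.le_induction with
  | base => simp
  | succ M hM ih =>
    rw [sum_Ioc_succ_top hM, sum_Ioc_succ_top hM, ih, sum_Ioc_succ_top (Nat.zero_le M)]
    push_cast
    ring

theorem abel_positive (g d : ℕ → ℝ) {N : ℕ} : ∀ M, N ≤ M →
    (∑ n ∈ Ioc N M, g (n + 1) * (d n - d (n + 1))) + g (M + 1) * d (M + 1) =
      g (N + 1) * d (N + 1) + ∑ n ∈ Ioc N M, (g (n + 1) - g n) * d n := by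
  intro M hM
  induction M, hM using Nat.le_induction with
  | base => simp
  | succ M hM ih =>
    rw [sum_Ioc_succ_top hM, sum_Ioc_succ_top hM]
    linarith

variable {s : ℝ} {n : ℕ}

theorem log_pos_of (hn : 2 ≤ n) : 0 < Real.log n :=
  Real.log_pos (by exact_mod_cast (show 1 < n by omega))

theorem log_ge_half (hn : 2 ≤ n) : 1 / 2 ≤ Real.log n :=
  le_trans (by linarith [Real.log_two_gt_d9])
    (Real.log_le_log two_pos (show (2 : ℝ) ≤ n by exact_mod_cast hn))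

theorem rpow_neg_le_inv (hs : 1 ≤ s) (hn : 1 ≤ n) : (n : ℝ) ^ (-s) ≤ 1 / n := by
  rw [one_div, ← Real.rpow_neg_one]
  exact Real.rpow_le_rpow_of_exponent_le (Nat.one_le_cast.2 hn) (by linarith)

theorem wt_nonneg (n : ℕ) : 0 ≤ wt s n :=
  div_nonneg (Real.rpow_nonneg (Nat.cast_nonneg n) _) (Real.log_natCast_nonneg n)

theorem wt_le (hs : 1 ≤ s) (hn : 2 ≤ n) : wt s n ≤ 1 / (n * Real.log n) := by
  rw [← div_div]
  exact div_le_div_of_nonneg_right (rpow_neg_le_inv hs (by omega)) (log_pos_of hn).le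

theorem wt_anti (hs : 1 ≤ s) (hn : 2 ≤ n) : wt s (n + 1) ≤ wt s n := by
  have h0 : (0 : ℝ) < n := Nat.cast_pos.2 (by omega)
  have hl : Real.log n ≤ Real.log (n + 1 : ℕ) := Real.log_le_log h0 (by push_cast; linarith)
  refine (div_le_div_of_nonneg_left (Real.rpow_nonneg (Nat.cast_nonneg _) _)
    (log_pos_of hn) hl).trans (div_le_div_of_nonneg_right ?_ (log_pos_of hn).le)
  exact Real.rpow_le_rpow_of_nonpos h0 (by push_cast; linarith) (by linarith)

theorem dwt_nonneg (hs : 1 ≤ s) (hn : 2 ≤ n) : 0 ≤ dwt s n := sub_nonneg.2 (wt_anti hs hn)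

/-- The weight is convex. -/
theorem dwt_anti (hs : 1 ≤ s) (hn : 2 ≤ n) : dwt s (n + 1) ≤ dwt s n := by
  obtain ⟨A, hA⟩ : ∃ A, A = wt s n := ⟨_, rfl⟩
  obtain ⟨B, hB⟩ : ∃ B, B = wt s (n + 1) := ⟨_, rfl⟩
  obtain ⟨C, hC⟩ : ∃ C, C = wt s (n + 1 + 1) := ⟨_, rfl⟩
  have hA0 : 0 ≤ A := hA ▸ wt_nonneg n
  have hB0 : 0 ≤ B := hB ▸ wt_nonneg _
  have hC0 : 0 ≤ C := hC ▸ wt_nonneg _
  have hmid : B * B ≤ A * C := by
    have h0 : (0 : ℝ) < n := Nat.cast_pos.2 (by omega)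
    have hl0 := log_pos_of hn
    have hl1 := log_pos_of (show 2 ≤ n + 1 by omega)
    have hl2 := log_pos_of (show 2 ≤ n + 1 + 1 by omega)
    rw [hA, hB, hC, wt, wt, wt, div_mul_div_comm, div_mul_div_comm]
    refine div_le_div₀ (by positivity) ?_ (mul_pos hl0 hl2) ?_
    · rw [← Real.mul_rpow (by positivity) (by positivity),
        ← Real.mul_rpow (by positivity) (by positivity)]
      exact Real.rpow_le_rpow_of_nonpos (by positivity) (by push_cast; nlinarith) (by linarith)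
    · have h2 : Real.log n + Real.log (n + 1 + 1 : ℕ) ≤
          Real.log (n + 1 : ℕ) + Real.log (n + 1 : ℕ) := by
        rw [← Real.log_mul h0.ne' (by positivity), ← Real.log_mul (by positivity) (by positivity)]
        exact Real.log_le_log (by positivity) (by push_cast; nlinarith)
      nlinarith [sq_nonneg (Real.log n - Real.log (n + 1 + 1 : ℕ))]
  rw [dwt, dwt, ← hA, ← hB, ← hC]
  nlinarith [sq_nonneg (A - C)]

theorem dwt_le (hs : 1 ≤ s) (hs2 : s ≤ 2) (hn : 2 ≤ n) :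
    dwt s n ≤ 4 / ((n : ℝ) ^ 2 * Real.log n) := by
  have h0 : (0 : ℝ) < n := Nat.cast_pos.2 (by omega)
  have hl0 := log_pos_of hn
  have hl1 := log_pos_of (show 2 ≤ n + 1 by omega)
  obtain ⟨u, hu⟩ : ∃ u : ℝ, u = (n : ℝ) ^ (-s) := ⟨_, rfl⟩
  obtain ⟨v, hv⟩ : ∃ v : ℝ, v = ((n + 1 : ℕ) : ℝ) ^ (-s) := ⟨_, rfl⟩
  have hu0 : 0 ≤ u := hu ▸ by positivity
  have hv0 : 0 ≤ v := hv ▸ by positivity
  have hu1 : u ≤ 1 / n := hu ▸ rpow_neg_le_inv hs (by omega)
  have hvu : v ≤ u := hu ▸ hv ▸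
    Real.rpow_le_rpow_of_nonpos h0 (by push_cast; linarith) (by linarith)
  have hv1 : u * ((n : ℝ) / (n + 1)) ^ 2 ≤ v := by
    have e : v = u * ((n : ℝ) / (n + 1)) ^ s := by
      rw [hu, hv, Real.rpow_neg h0.le, Real.rpow_neg (by positivity),
        Real.div_rpow h0.le (by positivity)]
      push_cast
      field_simp
    rw [e, ← Real.rpow_two]
    refine mul_le_mul_of_nonneg_left (Real.rpow_le_rpow_of_exponent_ge (by positivity) ?_ hs2) hu0
    rw [div_le_one (by positivity)]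
    linarith
  have hdiff : u - v ≤ 2 / (n : ℝ) ^ 2 := by
    have h1 : 1 - ((n : ℝ) / (n + 1)) ^ 2 ≤ 2 / n := by
      rw [sub_le_iff_le_add, div_pow, div_add_div _ _ (by positivity) (by positivity),
        le_div_iff₀ (by positivity)]
      nlinarith
    calc u - v ≤ u * (1 - ((n : ℝ) / (n + 1)) ^ 2) := by linarith
      _ ≤ 1 / n * (2 / n) := mul_le_mul hu1 h1 (by
          rw [sub_nonneg]
          exact pow_le_one₀ (by positivity) (by rw [div_le_one (by positivity)]; linarith))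
          (by positivity)
      _ = _ := by ring
  obtain ⟨l, hl⟩ : ∃ l, l = Real.log n := ⟨_, rfl⟩
  obtain ⟨m, hm⟩ : ∃ m, m = Real.log (n + 1 : ℕ) := ⟨_, rfl⟩
  have hlm : l ≤ m := hl ▸ hm ▸ Real.log_le_log h0 (by push_cast; linarith)
  have hml : m - l ≤ 1 / n := by
    rw [hl, hm, ← Real.log_div (by positivity) h0.ne']
    refine (Real.log_le_sub_one_of_pos (by positivity)).trans (le_of_eq ?_)
    push_cast
    field_simp
    ring
  have hlh : 1 / 2 ≤ l := hl ▸ log_ge_half hn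
  rw [dwt, wt, wt, ← hu, ← hv, ← hl, ← hm]
  have e : u / l - v / m = (u - v) / l + v * ((m - l) / (l * m)) := by
    have : 0 < l := by linarith
    have : 0 < m := by linarith
    field_simp
    ring
  rw [e]
  have h2 : v * ((m - l) / (l * m)) ≤ 1 / n * (1 / n / (l * (1 / 2))) := by
    refine mul_le_mul (hvu.trans hu1) ?_ (div_nonneg (by linarith) ?_) (by positivity)
    · exact div_le_div₀ (by positivity) hml (by positivity)
        (mul_le_mul_of_nonneg_left (by linarith) (by linarith))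
    · exact mul_nonneg (by linarith) (by linarith)
  calc (u - v) / l + v * ((m - l) / (l * m))
      ≤ 2 / (n : ℝ) ^ 2 / l + 1 / n * (1 / n / (l * (1 / 2))) :=
        add_le_add (div_le_div_of_nonneg_right hdiff (by linarith)) h2
    _ = _ := by field_simp; ring

theorem sum_inv_sqrt_cube {N : ℕ} (hN : 1 ≤ N) : ∀ M, N ≤ M →
    ∑ n ∈ Ioc N M, 1 / ((n : ℝ) * √n) + 2 / √M ≤ 2 / √N := by
  intro M hM
  induction M, hM using Nat.le_induction with
  | base => simp
  | succ M hM ih =>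
    rw [sum_Ioc_succ_top hM]
    have h0 : (0 : ℝ) < M := Nat.cast_pos.2 (by omega)
    obtain ⟨a, ha⟩ : ∃ a, a = √(M : ℝ) := ⟨_, rfl⟩
    obtain ⟨b, hb⟩ : ∃ b, b = √((M + 1 : ℕ) : ℝ) := ⟨_, rfl⟩
    have ha0 : 0 < a := ha ▸ Real.sqrt_pos.2 h0
    have hab : a ≤ b := ha ▸ hb ▸ Real.sqrt_le_sqrt (by push_cast; linarith)
    have hsq : b ^ 2 - a ^ 2 = 1 := by
      rw [ha, hb, Real.sq_sqrt (Nat.cast_nonneg _), Real.sq_sqrt (Nat.cast_nonneg _)]
      push_cast
      ring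
    have hbM : ((M + 1 : ℕ) : ℝ) = b ^ 2 := by rw [hb, Real.sq_sqrt (Nat.cast_nonneg _)]
    have key : 1 / (b ^ 2 * b) + 2 / b ≤ 2 / a := by
      have hb0 : 0 < b := by linarith
      rw [div_add_div _ _ (by positivity) hb0.ne', div_le_div_iff₀ (by positivity) ha0]
      have h1 : 0 ≤ (b - a) * (b * (2 * b)) := by
        have := sub_nonneg.2 hab
        positivity
      nlinarith [mul_nonneg (sub_nonneg.2 hab) (show 0 ≤ 2 * b * b * (b - a) by
        have := sub_nonneg.2 hab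
        positivity), mul_pos hb0 hb0]
    rw [← hb, hbM]
    rw [← ha] at ih
    linarith

/-- `(n + 1) ^ (3/2) - n ^ (3/2) ≤ 3 √n`. -/
theorem sqrt_cube_step (hn : 1 ≤ n) :
    ((n + 1 : ℕ) : ℝ) * √((n + 1 : ℕ) : ℝ) - (n : ℝ) * √n ≤ 3 * √n := by
  have h1 : (1 : ℝ) ≤ n := Nat.one_le_cast.2 hn
  obtain ⟨a, ha⟩ : ∃ a, a = √(n : ℝ) := ⟨_, rfl⟩
  obtain ⟨b, hb⟩ : ∃ b, b = √((n + 1 : ℕ) : ℝ) := ⟨_, rfl⟩
  have hna : (n : ℝ) = a ^ 2 := by rw [ha, Real.sq_sqrt (Nat.cast_nonneg _)]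
  have hnb : ((n + 1 : ℕ) : ℝ) = b ^ 2 := by rw [hb, Real.sq_sqrt (Nat.cast_nonneg _)]
  have hsq : b ^ 2 = a ^ 2 + 1 := by rw [← hna, ← hnb]; push_cast; ring
  have ha1 : 1 ≤ a := ha ▸ Real.one_le_sqrt.2 h1
  have hb0 : 0 ≤ b := hb ▸ Real.sqrt_nonneg _
  rw [← ha, ← hb, hna, hnb]
  have hbh : b ≤ a + 1 / (2 * a) := by
    refine (sq_le_sq₀ hb0 (by positivity)).1 ?_
    rw [hsq, add_sq]
    field_simp
    nlinarith
  have : b ^ 2 * b ≤ (a ^ 2 + 1) * (a + 1 / (2 * a)) := by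
    rw [hsq]
    exact mul_le_mul_of_nonneg_left hbh (by positivity)
  refine le_trans (sub_le_sub_right this _) ?_
  field_simp
  nlinarith

/-- **The tail of the weighted sum.** -/
theorem norm_sum_wt_le {a : ℕ → ℂ} {K : ℝ} (hK : 0 ≤ K)
    (h1 : ∀ n : ℕ, ‖∑ k ∈ Ioc 0 n, a k‖ ≤ 2 * n)
    (h2 : ∀ n : ℕ, 1 ≤ n → ‖∑ k ∈ Ioc 0 n, ∑ j ∈ Ioc 0 k, a j‖ ≤
      K * ((n + 1 : ℕ) * √((n + 1 : ℕ) : ℝ)))
    (hs : 1 ≤ s) (hs2 : s ≤ 2) {N M : ℕ} (hN : 2 ≤ N) (hM : N ≤ M) :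
    ‖∑ n ∈ Ioc N M, a n * (wt s n : ℂ)‖ ≤ (4 + 32 * (K / √N)) / Real.log N := by
  obtain ⟨A, hA⟩ : ∃ A : ℕ → ℂ, A = fun n => ∑ k ∈ Ioc 0 n, a k := ⟨_, rfl⟩
  obtain ⟨g, hg⟩ : ∃ g : ℕ → ℝ, g = fun n : ℕ => (n : ℝ) * √n := ⟨_, rfl⟩
  have hlN := log_pos_of hN
  have hedge : ∀ m, N ≤ m → ‖A m * (wt s (m + 1) : ℂ)‖ ≤ 2 / Real.log N := fun m hm => by
    rw [norm_mul, Complex.norm_real, Real.norm_of_nonneg (wt_nonneg _), hA]
    refine (mul_le_mul (h1 m) (wt_le hs (by omega)) (wt_nonneg _) (by positivity)).trans ?_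
    have hlm : Real.log N ≤ Real.log (m + 1 : ℕ) :=
      Real.log_le_log (Nat.cast_pos.2 (by omega)) (Nat.cast_le.2 (by omega))
    calc 2 * (m : ℝ) * (1 / ((m + 1 : ℕ) * Real.log (m + 1 : ℕ)))
        = 2 * ((m : ℝ) / (m + 1 : ℕ)) / Real.log (m + 1 : ℕ) := by ring
      _ ≤ 2 * 1 / Real.log N := by
          refine div_le_div₀ (by norm_num) ?_ hlN hlm
          refine mul_le_mul_of_nonneg_left ?_ two_pos.le
          rw [div_le_one (by positivity)]
          exact Nat.cast_le.2 (Nat.le_succ m)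
      _ = _ := by ring
  have hsecond : ∀ m, N ≤ m → g (m + 1) * dwt s (m + 1) ≤ 4 / (√N * Real.log N) := fun m hm => by
    rw [hg]
    refine (mul_le_mul_of_nonneg_left (dwt_le hs hs2 (by omega)) (by positivity)).trans ?_
    have hm0 : (0 : ℝ) < (m + 1 : ℕ) := by positivity
    have hle : (N : ℝ) ≤ (m + 1 : ℕ) := Nat.cast_le.2 (by omega)
    rw [show ((m + 1 : ℕ) : ℝ) * √((m + 1 : ℕ) : ℝ) *
        (4 / (((m + 1 : ℕ) : ℝ) ^ 2 * Real.log (m + 1 : ℕ))) =
        4 / (√((m + 1 : ℕ) : ℝ) * Real.log (m + 1 : ℕ)) by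
      have := log_pos_of (show 2 ≤ m + 1 by omega)
      field_simp
      rw [Real.sq_sqrt hm0.le]]
    have hN0 : (0 : ℝ) < N := Nat.cast_pos.2 (by omega)
    exact div_le_div_of_nonneg_left (by norm_num) (mul_pos (Real.sqrt_pos.2 hN0) hlN)
      (mul_le_mul (Real.sqrt_le_sqrt hle) (Real.log_le_log hN0 hle) hlN.le (Real.sqrt_nonneg _))
  have hinner : ‖∑ n ∈ Ioc N M, A n * (dwt s n : ℂ)‖ ≤ 32 * (K / √N) / Real.log N := by
    rw [abel_identity A (dwt s) M hM]
    have hB : ∀ m, N ≤ m → ‖(∑ k ∈ Ioc 0 m, A k) * (dwt s (m + 1) : ℂ)‖ ≤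
        K * (g (m + 1) * dwt s (m + 1)) := fun m hm => by
      rw [norm_mul, Complex.norm_real, Real.norm_of_nonneg (dwt_nonneg hs (by omega)),
        ← mul_assoc, hg, hA]
      exact mul_le_mul_of_nonneg_right (h2 m (by omega)) (dwt_nonneg hs (by omega))
    have hS : ‖∑ n ∈ Ioc N M, (∑ k ∈ Ioc 0 n, A k) * ((dwt s n - dwt s (n + 1) : ℝ) : ℂ)‖ ≤
        K * ∑ n ∈ Ioc N M, g (n + 1) * (dwt s n - dwt s (n + 1)) := by
      rw [mul_sum]
      refine norm_sum_le_of_le _ fun n hn => ?_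
      have h2n : 2 ≤ n := by have := (mem_Ioc.1 hn).1; omega
      rw [norm_mul, Complex.norm_real, Real.norm_of_nonneg (sub_nonneg.2 (dwt_anti hs h2n)),
        ← mul_assoc, hg, hA]
      exact mul_le_mul_of_nonneg_right (h2 n (by omega)) (sub_nonneg.2 (dwt_anti hs h2n))
    have hgrow : ∑ n ∈ Ioc N M, (g (n + 1) - g n) * dwt s n ≤
        12 / Real.log N * (2 / √N) := by
      calc ∑ n ∈ Ioc N M, (g (n + 1) - g n) * dwt s n
          ≤ ∑ n ∈ Ioc N M, 12 / Real.log N * (1 / ((n : ℝ) * √n)) := by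
            refine sum_le_sum fun n hn => ?_
            have hNn := (mem_Ioc.1 hn).1
            have hn0 : (0 : ℝ) < n := Nat.cast_pos.2 (by omega)
            rw [hg]
            refine (mul_le_mul (sqrt_cube_step (by omega)) (dwt_le hs hs2 (by omega))
              (dwt_nonneg hs (by omega)) (by positivity)).trans ?_
            have hl : Real.log N ≤ Real.log n :=
              Real.log_le_log (Nat.cast_pos.2 (by omega)) (Nat.cast_le.2 hNn.le)
            calc 3 * √(n : ℝ) * (4 / ((n : ℝ) ^ 2 * Real.log n))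
                = 12 / Real.log n * (1 / ((n : ℝ) * √n)) := by
                  have := log_pos_of (show 2 ≤ n by omega)
                  field_simp
                  rw [Real.sq_sqrt hn0.le]
                  ring
              _ ≤ _ := mul_le_mul_of_nonneg_right
                  (div_le_div_of_nonneg_left (by norm_num) hlN hl) (by positivity)
        _ ≤ _ := by
            rw [← mul_sum]
            refine mul_le_mul_of_nonneg_left ?_ (by positivity)
            have := sum_inv_sqrt_cube (show 1 ≤ N by omega) M hM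
            linarith [show (0 : ℝ) ≤ 2 / √M by positivity]
    have hid := abel_positive g (dwt s) M hM
    refine ((norm_add_le _ _).trans (add_le_add ((norm_sub_le _ _).trans
      (add_le_add (hB M hM) (hB N le_rfl))) hS)).trans ?_
    calc K * (g (M + 1) * dwt s (M + 1)) + K * (g (N + 1) * dwt s (N + 1)) +
          K * ∑ n ∈ Ioc N M, g (n + 1) * (dwt s n - dwt s (n + 1))
        = K * (2 * (g (N + 1) * dwt s (N + 1)) +
            ∑ n ∈ Ioc N M, (g (n + 1) - g n) * dwt s n) := by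
          linear_combination K * hid
      _ ≤ K * (2 * (4 / (√N * Real.log N)) + 12 / Real.log N * (2 / √N)) :=
          mul_le_mul_of_nonneg_left (add_le_add (by linarith [hsecond N le_rfl]) hgrow) hK
      _ = _ := by ring
  have hA' : ∑ n ∈ Ioc N M, (∑ k ∈ Ioc 0 n, a k) * ((wt s n - wt s (n + 1) : ℝ) : ℂ) =
      ∑ n ∈ Ioc N M, A n * (dwt s n : ℂ) := by rw [hA]; rfl
  rw [abel_identity a (wt s) M hM, hA']
  have e1 := hedge M hM
  have e2 := hedge N le_rfl
  rw [hA] at e1 e2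
  refine ((norm_add_le _ _).trans (add_le_add ((norm_sub_le _ _).trans
    (add_le_add e1 e2)) hinner)).trans (le_of_eq ?_)
  ring

end FA.LOneGRH

end
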