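import Fermat.Agent.AnkenyBound.Core
import Fermat.Agent.LOneGRH.Weights
import Mathlib.NumberTheory.EulerProduct.DirichletLSeries
import Mathlib.Analysis.SpecialFunctions.Complex.LogBounds
import Mathlib.NumberTheory.LSeries.Nonvanishing

/-!
# `L (1, χ)` is a short Euler product on GRH

`L (1, χ) = ∏_{p ≤ N} (1 - χ p / p)⁻¹ exp E` with `‖E‖ ≤ C (1 + log (2 q) / √N) / log N`.
-/

set_option autoImplicit false

noncomputable section

namespace FA.LOneGRH

open Finset Filter DirichletCharacter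
open FA.DirichletHadamard (GRHFor)
open FA.GRHProgressions (sum_not_coprime card_primeFactors_le grhFor_primOf)
open FA.Gallagher (psiOneChar twist primOf primOf_eq_one_iff)
open scoped Topology ArithmeticFunction.vonMangoldt

variable {q : ℕ} [NeZero q]

/-- `χ p log p` at the primes. -/
def primeA (χ : DirichletCharacter ℂ q) (n : ℕ) : ℂ :=
  if n.Prime then χ n * (Real.log n : ℂ) else 0

/-- `∏_{p ≤ N} (1 - χ p p ^ (-s))⁻¹`. -/
def partProd (χ : DirichletCharacter ℂ q) (N : ℕ) (s : ℝ) : ℂ :=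
  ∏ p ∈ (Icc 1 N).filter Nat.Prime, (1 - χ p * (((p : ℝ) ^ (-s) : ℝ) : ℂ))⁻¹

omit [NeZero q] in
theorem norm_sum_primeA_le (χ : DirichletCharacter ℂ q) (n : ℕ) :
    ‖∑ k ∈ Ioc 0 n, primeA χ k‖ ≤ 2 * n := by
  have h1 : ‖∑ k ∈ Ioc 0 n, primeA χ k‖ ≤ Chebyshev.theta n := by
    rw [Chebyshev.theta, Nat.floor_natCast, sum_filter]
    refine norm_sum_le_of_le _ fun k _ => ?_
    rw [primeA]
    split_ifs with hk
    · rw [norm_mul, Complex.norm_real, Real.norm_of_nonneg (Real.log_natCast_nonneg k)]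
      exact mul_le_of_le_one_left (Real.log_natCast_nonneg k) (χ.norm_le_one _)
    · simp
  refine (h1.trans (Chebyshev.theta_le_log4_mul_x (Nat.cast_nonneg n))).trans ?_
  refine mul_le_mul_of_nonneg_right ?_ (Nat.cast_nonneg n)
  have := Real.log_two_lt_d9
  rw [show (4 : ℝ) = 2 ^ 2 by norm_num, Real.log_pow]
  push_cast
  linarith

theorem sum_partial_eq (a : ℕ → ℂ) (n : ℕ) :
    ∑ k ∈ Ioc 0 n, ∑ j ∈ Ioc 0 k, a j =
      ∑ j ∈ Ioc 0 (n + 1), a j * (((n + 1 : ℕ) : ℂ) - j) := by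
  induction n with
  | zero => simp
  | succ n ih =>
    rw [sum_Ioc_succ_top (Nat.zero_le n), ih,
      sum_Ioc_succ_top (Nat.zero_le (n + 1)) fun j => a j * (((n + 1 + 1 : ℕ) : ℂ) - j)]
    have e : ∀ j : ℕ, a j * (((n + 1 + 1 : ℕ) : ℂ) - j) =
        a j * (((n + 1 : ℕ) : ℂ) - j) + a j := fun j => by push_cast; ring
    simp only [e, sum_add_distrib]
    push_cast
    ring

/-- `ψ₁ (x, χ) = O (x ^ (3/2) log q)` for all `χ ≠ 1`. -/
theorem exists_psiOne_nontrivial : ∃ C, 0 ≤ C ∧ ∀ (q : ℕ) [NeZero q]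
    (χ : DirichletCharacter ℂ q), χ ≠ 1 → GRHFor χ → ∀ x : ℝ, 1 ≤ x →
      ‖psiOneChar χ x‖ ≤ C * x * √x * Real.log (2 * q) := by
  obtain ⟨C, hC, h⟩ := AnkenyBound.exists_psiOne_primitive
  refine ⟨C + 4, by linarith, fun q _ χ hχ hG x hx => ?_⟩
  have hq : (1 : ℝ) ≤ q := Nat.one_le_cast.2 NeZero.one_le
  obtain ⟨L, hL⟩ : ∃ L, L = Real.log (2 * q) := ⟨_, rfl⟩
  rw [← hL]
  have hlq : Real.log q ≤ L := hL ▸ Real.log_le_log (by linarith) (by linarith)
  have hL2 : 0.69 ≤ L := by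
    rw [hL]
    linarith [Real.log_le_log two_pos (show (2 : ℝ) ≤ 2 * q by linarith), Real.log_two_gt_d9]
  have : NeZero (primOf χ).1 := ⟨χ.conductor_ne_zero⟩
  have h1 := h (primOf χ).1 (primOf χ).2 χ.primitiveCharacter_isPrimitive
    (fun e => hχ ((primOf_eq_one_iff χ).1 e)) (grhFor_primOf hχ hG) x hx
  have hle : Real.log (2 * (primOf χ).1) ≤ L := by
    rw [hL]
    refine Real.log_le_log (mul_pos two_pos (Nat.cast_pos.2 (NeZero.pos _))) ?_
    exact mul_le_mul_of_nonneg_left (Nat.cast_le.2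
      (Nat.le_of_dvd (NeZero.pos q) χ.conductor_dvd_level)) zero_le_two
  have h2 := AnkenyBound.norm_psiOne_sub_primOf χ (show 0 ≤ x by linarith)
  have hN : 1 ≤ ⌊x⌋₊ := Nat.le_floor (by push_cast; linarith)
  have h3 : ∑ n ∈ (Icc 1 ⌊x⌋₊).filter (fun n => ¬n.Coprime q), Λ n ≤ 4 * L * √x := by
    refine (sum_not_coprime q hN).trans ?_
    have hl : Real.log (⌊x⌋₊ : ℝ) ≤ 2 * √x := by
      refine (Real.log_le_log (Nat.cast_pos.2 hN) (Nat.floor_le (by linarith))).trans ?_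
      have h1 := Real.log_le_sub_one_of_pos (Real.sqrt_pos.2 (show 0 < x by linarith))
      rw [Real.log_sqrt (by linarith)] at h1
      linarith
    calc (q.primeFactors.card : ℝ) * Real.log (⌊x⌋₊ : ℝ) ≤ 2 * L * (2 * √x) :=
          mul_le_mul ((card_primeFactors_le q).trans (by linarith)) hl
            (Real.log_natCast_nonneg _) (by linarith)
      _ = _ := by ring
  calc ‖psiOneChar χ x‖ ≤ ‖psiOneChar (primOf χ).2 x‖ +
        ‖psiOneChar χ x - psiOneChar (primOf χ).2 x‖ := by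
        simpa [add_comm] using norm_add_le (psiOneChar χ x - psiOneChar (primOf χ).2 x)
          (psiOneChar (primOf χ).2 x)
    _ ≤ C * x * √x * L + x * (4 * L * √x) := add_le_add
        (h1.trans (mul_le_mul_of_nonneg_left hle (by positivity)))
        (h2.trans (mul_le_mul_of_nonneg_left h3 (by linarith)))
    _ = _ := by ring

theorem exists_thetaOne : ∃ C, 0 ≤ C ∧ ∀ (q : ℕ) [NeZero q]
    (χ : DirichletCharacter ℂ q), χ ≠ 1 → GRHFor χ → ∀ n : ℕ,
      ‖∑ k ∈ Ioc 0 n, ∑ j ∈ Ioc 0 k, primeA χ j‖ ≤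
        C * Real.log (2 * q) * ((n + 1 : ℕ) * √((n + 1 : ℕ) : ℝ)) := by
  obtain ⟨C, hC, h⟩ := exists_psiOne_nontrivial
  obtain ⟨D, hD⟩ := Chebyshev.psi_sub_theta_le_mul_sqrt
  have hD0 : 0 ≤ D := by
    have := hD 4
    have h4 : (0 : ℝ) < √4 := Real.sqrt_pos.2 (by norm_num)
    nlinarith [Chebyshev.theta_le_psi 4]
  refine ⟨C + 2 * D, by positivity, fun q _ χ hχ hG n => ?_⟩
  obtain ⟨L, hL⟩ : ∃ L, L = Real.log (2 * q) := ⟨_, rfl⟩
  obtain ⟨x, hx⟩ : ∃ x : ℝ, x = (n + 1 : ℕ) := ⟨_, rfl⟩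
  have hx1 : 1 ≤ x := hx ▸ Nat.one_le_cast.2 (by omega)
  have hL2 : 1 / 2 ≤ L := by
    rw [hL]
    have hq : (1 : ℝ) ≤ q := Nat.one_le_cast.2 NeZero.one_le
    linarith [Real.log_le_log two_pos (show (2 : ℝ) ≤ 2 * q by linarith), Real.log_two_gt_d9]
  rw [sum_partial_eq, ← hL, ← hx]
  have hpsi : psiOneChar χ x = ∑ j ∈ Ioc 0 (n + 1), twist χ j * (((n + 1 : ℕ) : ℂ) - j) := by
    rw [psiOneChar, hx, Nat.floor_natCast]
    refine sum_congr (by ext j; simp; omega) fun j _ => ?_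
    push_cast
    ring
  have hdiff : ‖∑ j ∈ Ioc 0 (n + 1), primeA χ j * (((n + 1 : ℕ) : ℂ) - j) - psiOneChar χ x‖ ≤
      x * (D * √x) := by
    rw [hpsi, ← sum_sub_distrib]
    refine le_trans ?_ (mul_le_mul_of_nonneg_left (hD x) (by linarith))
    rw [Chebyshev.psi_sub_theta_eq_sum_not_prime, hx, Nat.floor_natCast, mul_sum, sum_filter]
    refine norm_sum_le_of_le _ fun j hj => ?_
    rw [← sub_mul, norm_mul]
    by_cases hjp : j.Prime
    · simp [primeA, twist, hjp, ArithmeticFunction.vonMangoldt_apply_prime hjp]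
    · rw [if_pos hjp, primeA, if_neg hjp, zero_sub, norm_neg, twist, norm_mul, Complex.norm_real,
        Real.norm_of_nonneg ArithmeticFunction.vonMangoldt_nonneg,
        mul_comm ((n + 1 : ℕ) : ℝ)]
      refine mul_le_mul (mul_le_of_le_one_left ArithmeticFunction.vonMangoldt_nonneg
        (χ.norm_le_one _)) ?_ (norm_nonneg _) ArithmeticFunction.vonMangoldt_nonneg
      have hle : (j : ℝ) ≤ (n + 1 : ℕ) := Nat.cast_le.2 (mem_Ioc.1 hj).2
      rw [show ((n + 1 : ℕ) : ℂ) - j = ((((n + 1 : ℕ) : ℝ) - j : ℝ) : ℂ) by push_cast; rfl,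
        Complex.norm_real, Real.norm_of_nonneg (sub_nonneg.2 hle)]
      linarith [(Nat.cast_nonneg j : (0 : ℝ) ≤ j)]
  have h1 := h q χ hχ hG x hx1
  rw [← hL] at h1
  have h3 : D * 1 ≤ D * (2 * L) := mul_le_mul_of_nonneg_left (by linarith) hD0
  calc ‖∑ j ∈ Ioc 0 (n + 1), primeA χ j * (((n + 1 : ℕ) : ℂ) - j)‖
      ≤ ‖psiOneChar χ x‖ +
        ‖∑ j ∈ Ioc 0 (n + 1), primeA χ j * (((n + 1 : ℕ) : ℂ) - j) - psiOneChar χ x‖ := by
        simpa [add_comm] using norm_add_le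
          (∑ j ∈ Ioc 0 (n + 1), primeA χ j * (((n + 1 : ℕ) : ℂ) - j) - psiOneChar χ x)
          (psiOneChar χ x)
    _ ≤ C * x * √x * L + x * √x * (D * (2 * L)) := by
        refine add_le_add h1 (hdiff.trans ?_)
        rw [← mul_assoc x, mul_comm x D, mul_assoc D, mul_comm D]
        exact mul_le_mul_of_nonneg_left (by linarith) (by positivity)
    _ = _ := by ring

/-- **The tail of the Euler product.** -/
theorem exists_partProd_tail : ∃ C, 0 ≤ C ∧ ∀ (q : ℕ) [NeZero q]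
    (χ : DirichletCharacter ℂ q), χ ≠ 1 → GRHFor χ → ∀ s : ℝ, 1 ≤ s → s ≤ 2 →
      ∀ N M : ℕ, 2 ≤ N → N ≤ M → ∃ E : ℂ, ‖E‖ ≤ C * (1 + Real.log (2 * q) / √N) / Real.log N ∧
        partProd χ M s = partProd χ N s * Complex.exp E := by
  obtain ⟨C, hC, h⟩ := exists_thetaOne
  refine ⟨8 + 32 * C, by positivity, fun q _ χ hχ hG s hs hs2 N M hN hM => ?_⟩
  obtain ⟨L, hL⟩ : ∃ L, L = Real.log (2 * q) := ⟨_, rfl⟩
  have hL0 : 0 ≤ L := hL ▸ Real.log_nonneg (by
    linarith [(Nat.one_le_cast.2 NeZero.one_le : (1 : ℝ) ≤ q)])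
  have hlN := log_pos_of hN
  have hN0 : (0 : ℝ) < √N := Real.sqrt_pos.2 (Nat.cast_pos.2 (by omega))
  obtain ⟨z, hz⟩ : ∃ z : ℕ → ℂ, z = fun p : ℕ => χ p * (((p : ℝ) ^ (-s) : ℝ) : ℂ) := ⟨_, rfl⟩
  have hzn : ∀ p : ℕ, 2 ≤ p → ‖z p‖ ≤ 1 / p := fun p hp => by
    rw [hz, norm_mul, Complex.norm_real, Real.norm_of_nonneg (by positivity)]
    exact (mul_le_of_le_one_left (by positivity) (χ.norm_le_one _)).trans
      (rpow_neg_le_inv hs (by omega))
  have hz2 : ∀ p : ℕ, 2 ≤ p → ‖z p‖ ≤ 1 / 2 := fun p hp => (hzn p hp).trans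
    (one_div_le_one_div_of_le two_pos (by exact_mod_cast hp))
  obtain ⟨S, hS⟩ : ∃ S, S = (Ioc N M).filter Nat.Prime := ⟨_, rfl⟩
  have hmem : ∀ p ∈ S, 2 ≤ p ∧ p.Prime := fun p hp => by
    rw [hS, mem_filter] at hp
    exact ⟨hp.2.two_le, hp.2⟩
  refine ⟨∑ p ∈ S, Complex.log (1 - z p)⁻¹, ?_, ?_⟩
  · have hmain : ‖∑ p ∈ S, z p‖ ≤ (4 + 32 * (C * L / √N)) / Real.log N := by
      have e : ∑ p ∈ S, z p = ∑ n ∈ Ioc N M, primeA χ n * (wt s n : ℂ) := by
        rw [hS, sum_filter]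
        refine sum_congr rfl fun n hn => ?_
        rw [primeA]
        split_ifs with hnp
        · have hl := (log_pos_of hnp.two_le).ne'
          rw [hz, mul_assoc, ← Complex.ofReal_mul, wt, mul_div_cancel₀ _ hl]
        · simp
      rw [e]
      exact norm_sum_wt_le (by positivity) (norm_sum_primeA_le χ)
        (fun n _ => hL ▸ h q χ hχ hG n) hs hs2 hN hM
    have hrest : ‖∑ p ∈ S, (Complex.log (1 - z p)⁻¹ - z p)‖ ≤ 4 / Real.log N := by
      have h1 : ‖∑ p ∈ S, (Complex.log (1 - z p)⁻¹ - z p)‖ ≤ 2 / √N := by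
        refine (norm_sum_le_of_le _ fun p hp => ?_).trans ((sum_le_sum_of_subset_of_nonneg
          (s := S) (t := Ioc N M) (f := fun n : ℕ => 1 / ((n : ℝ) * √n))
          (hS ▸ filter_subset _ _) fun n _ _ => by positivity).trans ?_)
        · obtain ⟨hp2, -⟩ := hmem p hp
          have hn := hzn p hp2
          have hn2 := hz2 p hp2
          refine (Complex.norm_log_one_sub_inv_sub_self_le (by linarith)).trans ?_
          have hinv : (1 - ‖z p‖)⁻¹ ≤ 2 := inv_le_of_inv_le₀ two_pos (by linarith)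
          have hp0 : (0 : ℝ) < p := Nat.cast_pos.2 (by omega)
          calc ‖z p‖ ^ 2 * (1 - ‖z p‖)⁻¹ / 2 ≤ (1 / (p : ℝ)) ^ 2 * 2 / 2 := by
                refine div_le_div_of_nonneg_right (mul_le_mul
                  (pow_le_pow_left₀ (norm_nonneg _) hn 2) hinv (inv_nonneg.2 (by linarith))
                  (by positivity)) two_pos.le
            _ ≤ 1 / ((p : ℝ) * √p) := by
                rw [one_div_pow, mul_div_cancel_right₀ _ two_ne_zero]
                refine one_div_le_one_div_of_le (by positivity) ?_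
                rw [sq]
                refine mul_le_mul_of_nonneg_left ?_ hp0.le
                exact Real.sqrt_le_iff.2 ⟨hp0.le, by nlinarith [(show (2 : ℝ) ≤ p by
                  exact_mod_cast hp2)]⟩
        · linarith [sum_inv_sqrt_cube (show 1 ≤ N by omega) M hM,
            show (0 : ℝ) ≤ 2 / √M by positivity]
      refine h1.trans ?_
      rw [div_le_div_iff₀ hN0 hlN]
      have := Real.log_le_sub_one_of_pos hN0
      rw [Real.log_sqrt (Nat.cast_nonneg N)] at this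
      linarith
    rw [sum_sub_distrib] at hrest
    calc ‖∑ p ∈ S, Complex.log (1 - z p)⁻¹‖
        ≤ ‖∑ p ∈ S, z p‖ + ‖∑ p ∈ S, Complex.log (1 - z p)⁻¹ - ∑ p ∈ S, z p‖ := by
          simpa using norm_add_le (∑ p ∈ S, z p)
            (∑ p ∈ S, Complex.log (1 - z p)⁻¹ - ∑ p ∈ S, z p)
      _ ≤ (4 + 32 * (C * L / √N)) / Real.log N + 4 / Real.log N := add_le_add hmain hrest
      _ = (8 + 32 * C * (L / √N)) / Real.log N := by ring
      _ ≤ _ := by
          rw [← hL]
          refine div_le_div_of_nonneg_right ?_ hlN.le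
          have h1 : (0 : ℝ) ≤ L / √N := by positivity
          nlinarith
  · rw [Complex.exp_sum, partProd, partProd]
    have e : (Icc 1 M).filter Nat.Prime = (Icc 1 N).filter Nat.Prime ∪ S := by
      rw [hS, ← filter_union]
      congr 1
      ext p
      simp
      omega
    rw [e, prod_union (by
      rw [hS, disjoint_left]
      intro p hp hp'
      simp only [mem_filter, mem_Icc, mem_Ioc] at hp hp'
      omega)]
    refine congrArg _ (prod_congr rfl fun p hp => ?_)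
    rw [Complex.exp_log (inv_ne_zero (sub_ne_zero.2 fun e1 => ?_)), hz]
    have := hz2 p (hmem p hp).1
    rw [← e1, norm_one] at this
    norm_num at this

/-- **`L (1, χ)` is a short Euler product.** -/
theorem exists_lfunction_one : ∃ C, 0 ≤ C ∧ ∀ (q : ℕ) [NeZero q]
    (χ : DirichletCharacter ℂ q), χ ≠ 1 → GRHFor χ → ∀ N : ℕ, 2 ≤ N →
      ∃ E : ℂ, ‖E‖ ≤ C * (1 + Real.log (2 * q) / √N) / Real.log N ∧
        LFunction χ 1 = partProd χ N 1 * Complex.exp E := by
  obtain ⟨C, hC, h⟩ := exists_partProd_tail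
  refine ⟨C, hC, fun q _ χ hχ hG N hN => ?_⟩
  obtain ⟨B, hB⟩ : ∃ B, B = C * (1 + Real.log (2 * q) / √N) / Real.log N := ⟨_, rfl⟩
  rw [← hB]
  obtain ⟨K, hK⟩ : ∃ K, K = Complex.exp '' Metric.closedBall 0 B := ⟨_, rfl⟩
  have hKc : IsClosed K := hK ▸
    ((isCompact_closedBall _ _).image Complex.continuous_exp).isClosed
  have hne : ∀ (M : ℕ) (s : ℝ), 1 ≤ s → partProd χ M s ≠ 0 := fun M s hs =>
    prod_ne_zero_iff.2 fun p hp => inv_ne_zero (sub_ne_zero.2 fun e => by
      obtain ⟨-, hp⟩ := mem_filter.1 hp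
      have h1 : ‖χ p * (((p : ℝ) ^ (-s) : ℝ) : ℂ)‖ ≤ 1 / 2 := by
        rw [norm_mul, Complex.norm_real, Real.norm_of_nonneg (by positivity)]
        exact ((mul_le_of_le_one_left (by positivity) (χ.norm_le_one _)).trans
          (rpow_neg_le_inv hs hp.one_le)).trans
          (one_div_le_one_div_of_le two_pos (by exact_mod_cast hp.two_le))
      rw [← e, norm_one] at h1
      norm_num at h1)
  have hright : ∀ s : ℝ, 1 < s → s ≤ 2 → LFunction χ (s : ℂ) / partProd χ N s ∈ K := by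
    intro s hs hs2
    have hlim : Tendsto (fun M => partProd χ M s / partProd χ N s) atTop
        (𝓝 (LFunction χ (s : ℂ) / partProd χ N s)) := by
      refine Tendsto.div_const ?_ _
      rw [LFunction_eq_LSeries χ (by simpa using hs)]
      refine ((LSeries_eulerProduct χ (show 1 < (s : ℂ).re by simpa using hs)).comp
        (tendsto_add_atTop_nat 1)).congr fun M => ?_
      refine prod_congr ?_ fun p _ => ?_
      · ext p
        simp only [Nat.mem_primesBelow, mem_filter, mem_Icc]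
        exact ⟨fun h => ⟨⟨h.2.one_le, by omega⟩, h.2⟩, fun h => ⟨by omega, h.2⟩⟩
      · rw [Complex.ofReal_cpow (Nat.cast_nonneg p)]
        push_cast
        rfl
    refine hKc.mem_of_tendsto hlim ((eventually_ge_atTop N).mono fun M hM => ?_)
    obtain ⟨E, hE, he⟩ := h q χ hχ hG s hs.le hs2 N M hN hM
    rw [hK, he, mul_div_cancel_left₀ _ (hne N s hs.le)]
    exact ⟨E, mem_closedBall_zero_iff.2 (hB ▸ hE), rfl⟩
  have hlim : Tendsto (fun s : ℝ => LFunction χ (s : ℂ) / partProd χ N s) (𝓝[>] 1)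
      (𝓝 (LFunction χ 1 / partProd χ N 1)) := by
    refine Tendsto.div ?_ ?_ (hne N 1 le_rfl)
    · exact ((differentiable_LFunction hχ).continuous.tendsto _).comp
        ((Complex.continuous_ofReal.tendsto' 1 1 Complex.ofReal_one).mono_left nhdsWithin_le_nhds)
    · refine (ContinuousAt.tendsto ?_).mono_left nhdsWithin_le_nhds
      unfold partProd
      refine tendsto_finsetProd _ fun p hp => ?_
      obtain ⟨-, hp⟩ := mem_filter.1 hp
      refine ContinuousAt.inv₀ (continuousAt_const.sub (continuousAt_const.mul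
        (Complex.continuous_ofReal.continuousAt.comp (Real.continuousAt_const_rpow
          (Nat.cast_ne_zero.2 hp.ne_zero) |>.comp continuousAt_neg)))) ?_
      have := hne p 1 le_rfl
      refine sub_ne_zero.2 fun e => ?_
      have h1 := congrArg norm e
      rw [norm_one, norm_mul, Complex.norm_real, Real.norm_of_nonneg (by positivity)] at h1
      have h2 : (p : ℝ) ^ (-(1 : ℝ)) ≤ 1 / 2 := (rpow_neg_le_inv le_rfl hp.one_le).trans
        (one_div_le_one_div_of_le two_pos (by exact_mod_cast hp.two_le))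
      have h3 : ‖χ p‖ * (p : ℝ) ^ (-(1 : ℝ)) ≤ 1 * (1 / 2) :=
        mul_le_mul (χ.norm_le_one _) h2 (by positivity) one_pos.le
      linarith
  have hmem := hKc.mem_of_tendsto hlim (by
    filter_upwards [Ioc_mem_nhdsGT one_lt_two] with s hs
    exact hright s hs.1 hs.2)
  rw [hK] at hmem
  obtain ⟨E, hE, he⟩ := hmem
  refine ⟨E, mem_closedBall_zero_iff.1 hE, ?_⟩
  rw [he, mul_div_cancel₀ _ (hne N 1 le_rfl)]

end FA.LOneGRH

end
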